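import Mathlib
import Fermat.Agent.LT.T7.H305.MatchCut

/-!
# Row LT, tower T7, LEAF T7.L2.1.C2.7.8 = `PureExtC305` (helper82, registry row 2572)

OFF-MAIN.  Spec: `T7/H305/MatchCut.lean` (helper305, sha256 0f302b815a6f6af4).

    pureExtC82 K : H305.PureExtC305 K          VERBATIM, UNCONDITIONAL

The pure tensor does not change if `T` is enlarged to `S` and the new components are the unit
elements `1_{GL₂(𝒪_v)}`: `T6.InU 0 (h_v)` iff `h_v` and `h_v⁻¹` are integral
(`inU_zero_iff82`), so the product of the new components is `1` if `h` is integral outside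
`T`, and `0` if `h` is integral outside `S` but not outside `T`.
-/

set_option autoImplicit false

open AutomorphicForm IsDedekindDomain NumberField MeasureTheory
open scoped ComplexConjugate

noncomputable section

namespace Fermat.Agent.LT.T7.H82

open Fermat.Agent.LT.H556 Fermat.Agent.LT.H556.A0 Fermat.Agent.LT.T7
open Fermat.Agent.LT.T7.H305

variable {K : Type} [Field K] [NumberField K]

theorem val_one_apply_le82 (v : HeightOneSpectrum (𝓞 K)) (i j : Fin 2) :
    Valued.v ((1 : Matrix (Fin 2) (Fin 2) (v.adicCompletion K)) i j) ≤ 1 := by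
  by_cases h : i = j
  · rw [Matrix.one_apply, if_pos h, map_one]
  · rw [Matrix.one_apply, if_neg h, map_zero]
    exact zero_le_one

theorem finGL_coe82 (v : HeightOneSpectrum (𝓞 K)) (h : G K) :
    ((finGL305 v h : GL (Fin 2) (v.adicCompletion K)) :
      Matrix (Fin 2) (Fin 2) (v.adicCompletion K)) = finComp v h := rfl

theorem finGL_inv_coe82 (v : HeightOneSpectrum (𝓞 K)) (h : G K) :
    (((finGL305 v h)⁻¹ : GL (Fin 2) (v.adicCompletion K)) :
      Matrix (Fin 2) (Fin 2) (v.adicCompletion K)) = finComp v h⁻¹ := by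
  rw [← map_inv]
  rfl

/-- `U(0) = GL₂(𝒪_v)`: integral with integral inverse. -/
theorem inU_zero_iff82 (v : HeightOneSpectrum (𝓞 K)) (h : G K) :
    T6.InU 0 (finGL305 v h) ↔ IsIntegralAt v h ∧ IsIntegralAt v h⁻¹ := by
  have key : ∀ x y : v.adicCompletion K, Valued.v y ≤ 1 →
      (Valued.v (x - y) ≤ 1 ↔ Valued.v x ≤ 1) := by
    intro x y hy
    constructor
    · intro hxy
      have e : x = (x - y) + y := by ring
      rw [e]
      exact (Valuation.map_add _ _ _).trans (max_le hxy hy)
    · intro hx
      exact (Valuation.map_sub _ _ _).trans (max_le hx hy)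
  have h0 : WithZero.exp (-((0 : ℕ) : ℤ)) = (1 : WithZero (Multiplicative ℤ)) := by
    simp
  unfold T6.InU IsIntegralAt
  rw [finGL_coe82, finGL_inv_coe82]
  constructor
  · intro H
    refine ⟨fun i j => ?_, fun i j => ?_⟩
    · rw [HeightOneSpectrum.mem_adicCompletionIntegers]
      have := (H i j).1
      rw [h0] at this
      exact (key _ _ (val_one_apply_le82 v i j)).1 this
    · rw [HeightOneSpectrum.mem_adicCompletionIntegers]
      have := (H i j).2
      rw [h0] at this
      exact (key _ _ (val_one_apply_le82 v i j)).1 this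
  · rintro ⟨H1, H2⟩ i j
    rw [h0]
    refine ⟨(key _ _ (val_one_apply_le82 v i j)).2 ?_, (key _ _ (val_one_apply_le82 v i j)).2 ?_⟩
    · exact (HeightOneSpectrum.mem_adicCompletionIntegers _ _ _).1 (H1 i j)
    · exact (HeightOneSpectrum.mem_adicCompletionIntegers _ _ _).1 (H2 i j)

variable (K)

/-- **LEAF C2.7.8 `PureExtC305`**, VERBATIM and UNCONDITIONAL. -/
theorem pureExtC82 : PureExtC305 K := by
  classical
  intro T S hTS f₀ F h
  unfold pure305
  by_cases hT : OutT305 T h
  · have hS : OutT305 S h := fun v hv => hT v fun hvT => hv (hTS hvT)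
    rw [if_pos hT, if_pos hS]
    congr 1
    rw [← Finset.prod_sdiff hTS]
    have e1 : ∏ v ∈ S \ T, ext305 T f₀ v (finGL305 v h) = 1 := by
      refine Finset.prod_eq_one fun v hv => ?_
      have hvT : v ∉ T := (Finset.mem_sdiff.1 hv).2
      unfold ext305
      rw [if_neg hvT]
      unfold unit305
      rw [if_pos ((inU_zero_iff82 v h).2 (hT v hvT))]
    have e2 : ∏ v ∈ T, ext305 T f₀ v (finGL305 v h) = ∏ v ∈ T, f₀ v (finGL305 v h) := by
      refine Finset.prod_congr rfl fun v hv => ?_
      unfold ext305
      rw [if_pos hv]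
    rw [e1, e2, one_mul]
  · rw [if_neg hT]
    by_cases hS : OutT305 S h
    · rw [if_pos hS]
      -- a place `v ∈ S \ T` where `h` is not in `GL₂(𝒪_v)`
      have hex : ∃ v : HeightOneSpectrum (𝓞 K), v ∉ T ∧
          ¬ (IsIntegralAt v h ∧ IsIntegralAt v h⁻¹) := by
        by_contra hcon
        apply hT
        intro v hv
        by_contra hv'
        exact hcon ⟨v, hv, hv'⟩
      obtain ⟨v, hvT, hv⟩ := hex
      have hvS : v ∈ S := by
        by_contra hvS
        exact hv (hS v hvS)
      have e0 : ext305 T f₀ v (finGL305 v h) = 0 := by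
        unfold ext305
        rw [if_neg hvT]
        unfold unit305
        rw [if_neg fun hU => hv ((inU_zero_iff82 v h).1 hU)]
      rw [Finset.prod_eq_zero hvS e0, zero_mul]
    · rw [if_neg hS]

end Fermat.Agent.LT.T7.H82

end
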